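import Fermat.Agent.Ribet.H873.UnitPair
import Fermat.Agent.Ribet.H884.EisSpec

/-!
# RIBET row 38, (S4) CORE-OUT, TAME + WILD: INST-B with the `t`-expansion REMEMBERED (helper464)

`H873.exists_unitPair_cut873` (INST-B, on main) is purely existential in `D, D'`.  The assemblies
of TAME and of WILD (`H704.CoreOut.WildFrame`, fields `D`, `hD₂`; `WildFrameStatement`:
`IsModUnit p M' D ∧ (D : LaurentSeries Kbar) * coeffMap _ D₂ = 1`; `H884.SlopeProp`) need the
unit of the pair to BE the inverse `Δ(t)/Δ(t^q)` of the modular unit `H884.IsModUnit`.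
This file keeps the expansion (same proof as `H873`, from `S36.H438.mu_package`):

* `exists_unitPair_exp464`     : `D · D' = w ^ (12 e)`, `D ∉ w V∞`, `D' ∉ w V₀`,
                                 `(D : E((t))) = castE E (unitL' q)`  (`= Δ(t)/Δ(t^q)`);
* `exists_unitPair_cut_exp464` : the same with `D ∉ p₁`, `D' ∉ p₂` (`A2.Mod.IsCut`);
* `exists_unitPair_tame464`    : exponent `N = 12 (q - 1)`, `Nat.Coprime N q` (`q ≥ 5`), at a level
                                 with `q ~ w ^ (q - 1)` (`H944.Tame.ram_tameLevel`);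
* `exists_isModUnit464`        : `H884.IsModUnit p M' D` has a (nonzero) witness in `FF (p * M')`;
* `isModUnit_mul_coeffMap464`  : `IsModUnit p M' D → (X : E((t))) = castE E (unitL' p) →
                                 (D : Q̄((t))) * coeffMap (algebraMap E Q̄) X = 1`
                                 (the conjunct of `WildFrameStatement`, any level `E`);
* `isModUnit_inv_coe464`       : `((D⁻¹ : FF) : Q̄((t))) = coeffMap (algebraMap E Q̄) X`.
-/

set_option autoImplicit false
set_option synthInstance.maxHeartbeats 400000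
set_option maxHeartbeats 1600000
set_option linter.unusedSectionVars false

noncomputable section

namespace Fermat.Agent.Ribet.H464

open ModularCurve HahnSeries
open Fermat.Agent.A2.Mod Fermat.Agent.S28

variable {P : ValuationSubring Qb} {E : IntermediateField ℚ Qb}

section Pair

variable {M q : ℕ} [NeZero M] [NeZero q]

/-- `H873.unitPair873` with the expansion of `D` remembered. -/
theorem unitPair_exp464 {w : RE P E} (hS : Setting P E M q w)
    {V : ValuationSubring (FE E (M * q))} {W : FE E (M * q) ≃ₐ[E] FE E (M * q)}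
    (hV : IsVinf P E (M * q) V) (hW : IsFricke E (M * q) W) :
    ∃ D D' : FE E (M * q),
      D ∈ chartAlg P E (M * q) (xE E M q) ∧ D' ∈ chartAlg P E (M * q) (xE E M q) ∧
      D * D' = cE P E (M * q) ((q : RE P E) ^ 12) ∧
      ¬ InW P E (M * q) V w D ∧
      ¬ InW P E (M * q) (V.comap (W : FE E (M * q) →+* FE E (M * q))) w D' ∧
      (D : LaurentSeries E) = Fermat.Agent.S36.H438.castE E (H589.unitL' q) := by
  obtain ⟨D', D, -, hexp, hmul, hD', hD, hVu, hV0u, -⟩ :=
    Fermat.Agent.S36.H438.mu_package P E M q hS.q_prime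
  have hc0 : algebraMap E (FE E (M * q)) ((q : E) ^ 12) ≠ 0 := by
    rw [Ne, map_eq_zero]
    exact pow_ne_zero 12 (Nat.cast_ne_zero.mpr (NeZero.ne q))
  have hD0 : D ≠ 0 := by
    rintro rfl
    rw [mul_zero] at hmul
    exact hc0 hmul.symm
  have hD'0 : D' ≠ 0 := by
    rintro rfl
    rw [zero_mul] at hmul
    exact hc0 hmul.symm
  refine ⟨D, D', hD, hD', ?_, ?_, ?_, hexp⟩
  · rw [mul_comm D D', hmul, cE]
    congr 1
  · exact Fermat.Agent.Ribet.H873.not_inW_of_inv_mem873
      (Fermat.Agent.Ribet.H873.cE_inv_not_mem873 hS.dvr hS.unif hV) hD0 (hVu V hV).2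
  · exact Fermat.Agent.Ribet.H873.not_inW_of_inv_mem873
      (Fermat.Agent.Ribet.H873.cE_inv_not_mem_comap873 hS.dvr hS.unif hV W) hD'0
      (hV0u V W hV hW).2

/-- **INST-B, normalised, with expansion.**  `q ε = w ^ e` in `R_E`: elements `D, D'` of the chart
`B = chartAlg x` with `D · D' = w ^ (12 e)`, `D ∉ w V∞`, `D' ∉ w V₀`, and `D = Δ(t)/Δ(t^q)`. -/
theorem exists_unitPair_exp464 {w : RE P E} (hS : Setting P E M q w)
    {V : ValuationSubring (FE E (M * q))} {W : FE E (M * q) ≃ₐ[E] FE E (M * q)}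
    (hV : IsVinf P E (M * q) V) (hW : IsFricke E (M * q) W) :
    ∃ (e : ℕ) (D D' : chartAlg P E (M * q) (xE E M q)), 0 < e ∧
      Associated ((q : ℕ) : RE P E) (w ^ e) ∧
      D * D' = algebraMap (RE P E) (chartAlg P E (M * q) (xE E M q)) w ^ (12 * e) ∧
      ¬ InW P E (M * q) V w (D : FE E (M * q)) ∧
      ¬ InW P E (M * q) (V.comap (W : FE E (M * q) →+* FE E (M * q))) w
        (D' : FE E (M * q)) ∧
      (((D : FE E (M * q)) : FE E (M * q)) : LaurentSeries E) =
        Fermat.Agent.S36.H438.castE E (H589.unitL' q) := by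
  haveI := hS.dvr
  obtain ⟨D₀, D₀', hD, hD', hmul, hDV, hD'V, hexp⟩ := unitPair_exp464 hS hV hW
  have hq0 : ((q : ℕ) : RE P E) ≠ 0 := Nat.cast_ne_zero.mpr (NeZero.ne q)
  obtain ⟨e, he⟩ := IsDiscreteValuationRing.associated_pow_irreducible hq0 hS.unif
  have he0 : 0 < e := by
    rcases Nat.eq_zero_or_pos e with h0 | h0
    · exfalso
      rw [h0, pow_zero] at he
      exact Fermat.Agent.Ribet.H873.not_isUnit_natCast873 hS.lies_over
        (he.symm.isUnit_iff.mp isUnit_one)
    · exact h0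
  obtain ⟨ε, hε⟩ := he
  set B := chartAlg P E (M * q) (xE E M q) with hB
  refine ⟨e, ⟨D₀, hD⟩, algebraMap (RE P E) B ((ε : RE P E) ^ 12) * ⟨D₀', hD'⟩,
    he0, ⟨ε, hε⟩, ?_, hDV, ?_, hexp⟩
  · apply Subtype.ext
    show D₀ * (algebraMap (RE P E) (FE E (M * q)) ((ε : RE P E) ^ 12) * D₀') =
      (algebraMap (RE P E) (FE E (M * q)) w) ^ (12 * e)
    have hcE : cE P E (M * q) ((q : RE P E) ^ 12) =
        algebraMap (RE P E) (FE E (M * q)) ((q : RE P E) ^ 12) := rfl
    rw [mul_left_comm, hmul, hcE, ← map_mul, ← map_pow]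
    congr 1
    rw [pow_mul', ← hε]
    ring
  · intro h
    apply hD'V
    have hεV : algebraMap (RE P E) (FE E (M * q)) (((ε⁻¹ : (RE P E)ˣ) : RE P E) ^ 12) ∈
        V.comap (W : FE E (M * q) →+* FE E (M * q)) := by
      rw [ValuationSubring.mem_comap]
      have h1 : (W : FE E (M * q) →+* FE E (M * q))
          (algebraMap (RE P E) (FE E (M * q)) (((ε⁻¹ : (RE P E)ˣ) : RE P E) ^ 12)) =
          algebraMap E (FE E (M * q)) ((((ε⁻¹ : (RE P E)ˣ) : RE P E) ^ 12 : RE P E) : E) :=
        W.commutes _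
      rw [h1]
      exact (Fermat.Agent.A2.Mod.H708.algebraMap_mem_iff_of_isVinf hV _).mpr (Subtype.mem _)
    have h2 := (V.comap (W : FE E (M * q) →+* FE E (M * q))).mul_mem _ _ hεV h
    have h3 : algebraMap (RE P E) (FE E (M * q)) (((ε⁻¹ : (RE P E)ˣ) : RE P E) ^ 12) *
        (((algebraMap (RE P E) B ((ε : RE P E) ^ 12) * ⟨D₀', hD'⟩ : B) : FE E (M * q)) *
          (cE P E (M * q) w)⁻¹) = D₀' * (cE P E (M * q) w)⁻¹ := by
      have h4 : algebraMap (RE P E) (FE E (M * q)) (((ε⁻¹ : (RE P E)ˣ) : RE P E) ^ 12) *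
          algebraMap (RE P E) (FE E (M * q)) ((ε : RE P E) ^ 12) = 1 := by
        rw [← map_mul, ← mul_pow, Units.inv_mul, one_pow, map_one]
      show algebraMap (RE P E) (FE E (M * q)) (((ε⁻¹ : (RE P E)ˣ) : RE P E) ^ 12) *
        ((algebraMap (RE P E) (FE E (M * q)) ((ε : RE P E) ^ 12) * D₀') *
          (cE P E (M * q) w)⁻¹) = _
      rw [← mul_assoc, ← mul_assoc, h4, one_mul]
    rw [h3] at h2
    exact h2

/-- **INST-B, cut form, with expansion**: `D ∉ p₁`, `D' ∉ p₂` for the components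
`p₁ = B ∩ w V∞`, `p₂ = B ∩ w V₀` (`A2.Mod.IsCut`), and `D = Δ(t)/Δ(t^q)`. -/
theorem exists_unitPair_cut_exp464 {w : RE P E} (hS : Setting P E M q w)
    {V : ValuationSubring (FE E (M * q))} {W : FE E (M * q) ≃ₐ[E] FE E (M * q)}
    (hV : IsVinf P E (M * q) V) (hW : IsFricke E (M * q) W)
    (p₁ p₂ : Ideal (chartAlg P E (M * q) (xE E M q)))
    (hc₁ : IsCut P E (M * q) w V (chartAlg P E (M * q) (xE E M q)) p₁)
    (hc₂ : IsCut P E (M * q) w (V.comap (W : FE E (M * q) →+* FE E (M * q)))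
      (chartAlg P E (M * q) (xE E M q)) p₂) :
    ∃ (e : ℕ) (D D' : chartAlg P E (M * q) (xE E M q)), 0 < e ∧
      Associated ((q : ℕ) : RE P E) (w ^ e) ∧
      D * D' = algebraMap (RE P E) (chartAlg P E (M * q) (xE E M q)) w ^ (12 * e) ∧
      D ∉ p₁ ∧ D' ∉ p₂ ∧
      (((D : FE E (M * q)) : FE E (M * q)) : LaurentSeries E) =
        Fermat.Agent.S36.H438.castE E (H589.unitL' q) := by
  obtain ⟨e, D, D', he, hass, hmul, hD, hD', hexp⟩ := exists_unitPair_exp464 hS hV hW
  exact ⟨e, D, D', he, hass, hmul, fun h => hD ((hc₁ D).mp h), fun h => hD' ((hc₂ D').mp h),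
    hexp⟩

/-- Exponents of an irreducible are determined up to association. -/
theorem pow_eq_of_associated464 {R : Type*} [CommRing R] [IsDomain R]
    [IsDiscreteValuationRing R] {w a : R} (hw : Irreducible w) {e e' : ℕ}
    (h : Associated a (w ^ e)) (h' : Associated a (w ^ e')) : e = e' := by
  obtain ⟨u, hu⟩ := h.symm.trans h'
  have h1 : (u : R) * w ^ e = ((1 : Rˣ) : R) * w ^ e' := by
    rw [Units.val_one, one_mul, mul_comm]
    exact hu
  exact IsDiscreteValuationRing.unit_mul_pow_congr_pow hw hw u 1 e e' h1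

/-- `12 (q - 1)` is prime to a prime `q ≥ 5`. -/
theorem coprime_unitExp464 {q : ℕ} (hq : q.Prime) (hq5 : 5 ≤ q) :
    Nat.Coprime (12 * (q - 1)) q := by
  rw [Nat.coprime_comm, Nat.Prime.coprime_iff_not_dvd hq]
  intro h
  rcases (Nat.Prime.dvd_mul hq).mp h with h1 | h1
  · have h43 : q ∣ 4 * 3 := h1
    rcases (Nat.Prime.dvd_mul hq).mp h43 with h4 | h3
    · have := Nat.le_of_dvd (by norm_num) h4
      omega
    · have := Nat.le_of_dvd (by norm_num) h3
      omega
  · have := Nat.le_of_dvd (by omega) h1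
    omega

/-- **INST-B at a TAME level** (`q ~ w ^ (q - 1)`, e.g. `H944.Tame.ram_tameLevel`), `q ≥ 5`:
the unit pair of exponent `N = 12 (q - 1)`, prime to `q`, with `D = Δ(t)/Δ(t^q)`.
These are exactly the fields `N, D, D', hN, hDD, hD, hD'` of `H704.CoreOut.WildFrame`
(with `O₁ = R_E`, `K₁ = FE E (M * q)`, `B₁ = chartAlg x`, `c₁.pᵢ` the cuts). -/
theorem exists_unitPair_tame464 {w : RE P E} (hS : Setting P E M q w) (hq5 : 5 ≤ q)
    (hram : Associated ((q : ℕ) : RE P E) (w ^ (q - 1)))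
    {V : ValuationSubring (FE E (M * q))} {W : FE E (M * q) ≃ₐ[E] FE E (M * q)}
    (hV : IsVinf P E (M * q) V) (hW : IsFricke E (M * q) W)
    (p₁ p₂ : Ideal (chartAlg P E (M * q) (xE E M q)))
    (hc₁ : IsCut P E (M * q) w V (chartAlg P E (M * q) (xE E M q)) p₁)
    (hc₂ : IsCut P E (M * q) w (V.comap (W : FE E (M * q) →+* FE E (M * q)))
      (chartAlg P E (M * q) (xE E M q)) p₂) :
    ∃ (D D' : chartAlg P E (M * q) (xE E M q)),
      Nat.Coprime (12 * (q - 1)) q ∧
      D * D' = algebraMap (RE P E) (chartAlg P E (M * q) (xE E M q)) w ^ (12 * (q - 1)) ∧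
      D ∉ p₁ ∧ D' ∉ p₂ ∧
      (((D : FE E (M * q)) : FE E (M * q)) : LaurentSeries E) =
        Fermat.Agent.S36.H438.castE E (H589.unitL' q) := by
  haveI := hS.dvr
  obtain ⟨e, D, D', -, hass, hmul, hD, hD', hexp⟩ :=
    exists_unitPair_cut_exp464 hS hV hW p₁ p₂ hc₁ hc₂
  have he : e = q - 1 := pow_eq_of_associated464 hS.unif hass hram
  subst he
  exact ⟨D, D', coprime_unitExp464 hS.q_prime hq5, hmul, hD, hD', hexp⟩

end Pair

/-! ## The link with `H884.IsModUnit` -/

section ModUnit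

open Fermat.Agent.S24 Fermat.Agent.Ribet.H884

variable (p M' : ℕ) [NeZero p] [NeZero (p * M')]

/-- The modular unit `Δ(t^p)/Δ(t)` is an element of `FF (p * M')`. -/
theorem unitL_mem_FF464 : unitL Kbar p ∈ modularFunctionFieldBar (p * M') :=
  Fermat.Agent.S36.H438.laurentBaseChange_mono_h438 Kbar
    (full_degeneracy_le (Dvd.intro M' rfl)) (Fermat.Agent.S36.H438.unitL_bar_mem p)

/-- `H884.IsModUnit` has a nonzero witness. -/
theorem exists_isModUnit464 : ∃ D : FF (p * M'), IsModUnit p M' D ∧ D ≠ 0 := by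
  refine ⟨⟨unitL Kbar p, unitL_mem_FF464 p M'⟩, rfl, ?_⟩
  intro h
  have h1 : unitL Kbar p = 0 := congrArg Subtype.val h
  have h2 : coeffMap (Int.castRingHom Kbar) (unitL ℤ p) * coeffMap (Int.castRingHom Kbar)
      (H589.unitL' p) = 1 := by
    rw [← map_mul, Fermat.Agent.S36.H438.unitL_mul_unitL', map_one]
  rw [h88_coeffMap_unitL, h1, zero_mul] at h2
  exact zero_ne_one h2

variable {p M'}

/-- **UNIT-ID.**  For THE modular unit `D` (`IsModUnit`) and any element `X` of `E((t))` with the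
expansion `Δ(t)/Δ(t^p)` (e.g. the `D` of `exists_unitPair_tame464`, at ANY level `E`):
`D · ι X = 1` in `Q̄((t))`.  This is the conjunct
`(D : LaurentSeries Kbar) * coeffMap (algebraMap E₂ Kbar) (D₂ : LaurentSeries E₂) = 1`
of `H704.CoreOut.WildFrameStatement`. -/
theorem isModUnit_mul_coeffMap464 {D : FF (p * M')} (hD : IsModUnit p M' D)
    {X : LaurentSeries E} (hX : X = Fermat.Agent.S36.H438.castE E (H589.unitL' p)) :
    (D : LaurentSeries Kbar) * coeffMap (algebraMap E Kbar) X = 1 := by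
  have hD' : (D : LaurentSeries Kbar) = unitL Kbar p := hD
  rw [hD', hX, Fermat.Agent.S36.H438.coeffMap_castE, ← h88_coeffMap_unitL (Int.castRingHom Kbar) p,
    ← map_mul, Fermat.Agent.S36.H438.unitL_mul_unitL', map_one]

/-- The inverse of THE modular unit has expansion `ι X`. -/
theorem isModUnit_inv_coe464 {D : FF (p * M')} (hD : IsModUnit p M' D)
    {X : LaurentSeries E} (hX : X = Fermat.Agent.S36.H438.castE E (H589.unitL' p)) :
    ((D⁻¹ : FF (p * M')) : LaurentSeries Kbar) = coeffMap (algebraMap E Kbar) X := by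
  have h1 : ((D⁻¹ : FF (p * M')) : LaurentSeries Kbar) = (D : LaurentSeries Kbar)⁻¹ := rfl
  rw [h1]
  exact (eq_inv_of_mul_eq_one_right (isModUnit_mul_coeffMap464 hD hX)).symm

end ModUnit

end Fermat.Agent.Ribet.H464

end
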